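/-
S56, wall W2-EC, leaf (B1) Brauer–Nesbitt (helper88): linear algebra.

* `bn_charpoly_eq_mul` : the characteristic polynomial is multiplicative for a stable subspace;
* `bn_trace_eq_neg_nextCoeff` : the trace is minus the second coefficient of the characteristic
  polynomial;
* `bn_trace_mul_unip` : in characteristic `p`, `tr (s ∘ u) = tr s` if `u` commutes with `s` and
  `u ^ (p ^ n) = 1`;
* `bn_pow_char_inj` : `f ^ p = g ^ p → f = g` for polynomials over `𝔽_p`.
-/
import Mathlib

set_option autoImplicit false

namespace Fermat.Agent.S56.EC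

open Polynomial Module

section Charpoly

variable {K V : Type*} [Field K] [AddCommGroup V] [Module K V] [Module.Finite K V]

/-- The characteristic polynomial of an endomorphism is the product of the characteristic
polynomials on a stable subspace and on the quotient. -/
theorem bn_charpoly_eq_mul (W : Submodule K V) (e : V →ₗ[K] V) (he : W ≤ W.comap e) :
    e.charpoly = (e.restrict he).charpoly * (W.mapQ W e he).charpoly := by
  classical
  let m := Module.Free.ChooseBasisIndex K W
  let bW : Basis m K W := Module.Free.chooseBasis K W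
  let n := Module.Free.ChooseBasisIndex K (V ⧸ W)
  let bQ : Basis n K (V ⧸ W) := Module.Free.chooseBasis K (V ⧸ W)
  let b := Basis.sumQuot bW bQ
  let A : Matrix m m K := LinearMap.toMatrix bW bW (e.restrict he)
  let B : Matrix m n K := Matrix.of fun i l ↦
    ((Basis.sumQuot bW bQ).repr (e ((Basis.sumQuot bW bQ) (Sum.inr l)))) (Sum.inl i)
  let D : Matrix n n K := LinearMap.toMatrix bQ bQ (W.mapQ W e he)
  suffices LinearMap.toMatrix b b e = Matrix.fromBlocks A B 0 D by
    rw [← LinearMap.charpoly_toMatrix e b, this, ← LinearMap.charpoly_toMatrix (e.restrict he) bW,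
      ← LinearMap.charpoly_toMatrix (W.mapQ W e he) bQ, Matrix.charpoly_fromBlocks_zero₂₁]
  ext u v
  cases u with
  | inl i =>
    cases v with
    | inl k =>
      simp only [b, Basis.sumQuot_inl, Matrix.fromBlocks_apply₁₁, A, LinearMap.toMatrix_apply]
      apply Basis.sumQuot_repr_inl_of_mem
    | inr l => simp [b, LinearMap.toMatrix_apply, Matrix.fromBlocks_apply₁₂, B]
  | inr j =>
    cases v with
    | inl k =>
      suffices W.mkQ (e (bW k)) = 0 by simp [LinearMap.toMatrix_apply, b, this]
      rw [← LinearMap.mem_ker, Submodule.ker_mkQ]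
      exact he (Submodule.coe_mem (bW k))
    | inr l =>
      simp only [LinearMap.toMatrix_apply, Basis.sumQuot_repr_inr,
        Matrix.fromBlocks_apply₂₂, b, D]
      rw [← Basis.sumQuot_inr bW bQ l, W.mapQ_apply]
      simp

/-- The trace is minus the second coefficient of the characteristic polynomial. -/
theorem bn_trace_eq_neg_nextCoeff (e : V →ₗ[K] V) :
    LinearMap.trace K V e = - e.charpoly.nextCoeff := by
  classical
  let b := Module.Free.chooseBasis K V
  rw [LinearMap.trace_eq_matrix_trace K b, ← LinearMap.charpoly_toMatrix e b,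
    Matrix.trace_eq_neg_charpoly_nextCoeff]

/-- Conjugate endomorphisms have the same characteristic polynomial. -/
theorem bn_charpoly_congr {V' : Type*} [AddCommGroup V'] [Module K V'] [Module.Finite K V']
    (ε : V ≃ₗ[K] V') (e : V →ₗ[K] V) (e' : V' →ₗ[K] V') (h : ∀ x, ε (e x) = e' (ε x)) :
    e.charpoly = e'.charpoly := by
  have : e' = ε.conj e := by
    refine LinearMap.ext fun y => ?_
    rw [LinearEquiv.conj_apply_apply, h, LinearEquiv.apply_symm_apply]
  rw [this, LinearEquiv.charpoly_conj]

end Charpoly

section Unip

variable {K V : Type*} [Field K] [AddCommGroup V] [Module K V] [Module.Finite K V]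

/-- In characteristic `p`: `tr (s ∘ u) = tr s` when `u` commutes with `s` and `u ^ (p ^ n) = 1`. -/
theorem bn_trace_mul_unip (p : ℕ) [Fact p.Prime] [CharP K p] (s u : Module.End K V)
    (hc : Commute s u) (n : ℕ) (hu : u ^ (p ^ n) = 1) :
    LinearMap.trace K V (s * u) = LinearMap.trace K V s := by
  rcases subsingleton_or_nontrivial V with hV | hV
  · have : Subsingleton (Module.End K V) :=
      ⟨fun a b => LinearMap.ext fun x => Subsingleton.elim _ _⟩
    rw [Subsingleton.elim (s * u) s]
  have : CharP (Module.End K V) p :=
    charP_of_injective_algebraMap (FaithfulSMul.algebraMap_injective K (Module.End K V)) p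
  have hnil : IsNilpotent (u - 1) := by
    refine ⟨p ^ n, ?_⟩
    rw [sub_pow_char_pow_of_commute p n (Commute.one_right u), hu, one_pow, sub_self]
  have hnil2 : IsNilpotent (s * (u - 1)) :=
    Commute.isNilpotent_mul_left (hc.sub_right (Commute.one_right s)) hnil
  have htr : LinearMap.trace K V (s * (u - 1)) = 0 :=
    (LinearMap.isNilpotent_trace_of_isNilpotent hnil2).eq_zero
  have : s * u = s + s * (u - 1) := by rw [mul_sub, mul_one]; abel
  rw [this, map_add, htr, add_zero]

end Unip

section Frob

/-- `f ^ p = g ^ p → f = g` for polynomials over `𝔽_p`. -/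
theorem bn_pow_char_inj (p : ℕ) [Fact p.Prime] (f g : (ZMod p)[X]) (h : f ^ p = g ^ p) : f = g :=
  frobenius_inj (ZMod p)[X] p h

end Frob

end Fermat.Agent.S56.EC
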