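/-
S56, wall W2-EC, leaf (B1) Brauer–Nesbitt (helper88): the density theorem for a finite family of
pairwise non-isomorphic simple modules, and an element of the bicommutant with trace `1`.
-/
import Mathlib

set_option autoImplicit false
set_option linter.style.haveILetI false

namespace Fermat.Agent.S56.EC

open Module

section Density

variable {R : Type*} [Ring R] {κ : Type*} [Finite κ] (M : κ → Type*)
  [∀ i, AddCommGroup (M i)] [∀ i, Module R (M i)] [∀ i, IsSimpleModule R (M i)]
  [∀ i, Finite (M i)]

/-- **Density** for a finite family of simple modules without non-zero homomorphisms between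
different members: every additive endomorphism `φ` of `M j₀` commuting with `End_R (M j₀)` is
induced by an element of `R` which kills the other members. -/
theorem bn_density (hne : ∀ i j, i ≠ j → ∀ f : M i →ₗ[R] M j, f = 0)
    (j₀ : κ) (φ : M j₀ →+ M j₀)
    (hφ : ∀ (e : Module.End R (M j₀)) (y : M j₀), φ (e y) = e (φ y)) :
    ∃ r : R, (∀ y : M j₀, r • y = φ y) ∧ ∀ i, i ≠ j₀ → ∀ y : M i, r • y = 0 := by
  classical
  haveI : Fintype κ := Fintype.ofFinite κ
  -- the diagonal component of an endomorphism of the product
  let comp : Module.End R (∀ i, M i) → Module.End R (M j₀) := fun e =>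
    (LinearMap.proj j₀) ∘ₗ e ∘ₗ (LinearMap.single R M j₀)
  have h1 : ∀ (e : Module.End R (∀ i, M i)) (m : ∀ i, M i), (e m) j₀ = comp e (m j₀) := by
    intro e m
    have : (LinearMap.proj j₀) ∘ₗ e = (comp e) ∘ₗ (LinearMap.proj j₀ : (∀ i, M i) →ₗ[R] M j₀) := by
      refine LinearMap.pi_ext fun i y => ?_
      by_cases hi : i = j₀
      · subst hi
        simp [comp]
      · have h0 := hne i j₀ hi ((LinearMap.proj j₀) ∘ₗ e ∘ₗ (LinearMap.single R M i))
        have h0' := LinearMap.congr_fun h0 y
        simp only [LinearMap.coe_comp, Function.comp_apply, LinearMap.coe_proj,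
          Function.eval, LinearMap.zero_apply, LinearMap.coe_single] at h0' ⊢
        rw [h0', Pi.single_eq_of_ne (Ne.symm hi), map_zero]
    exact LinearMap.congr_fun this m
  have h2 : ∀ (e : Module.End R (∀ i, M i)) (y : M j₀),
      e (Pi.single j₀ y) = Pi.single j₀ (comp e y) := by
    intro e y
    funext i
    by_cases hi : i = j₀
    · subst hi
      simp [comp]
    · have h0 := hne j₀ i (Ne.symm hi) ((LinearMap.proj i) ∘ₗ e ∘ₗ (LinearMap.single R M j₀))
      have h0' := LinearMap.congr_fun h0 y
      simp only [LinearMap.coe_comp, Function.comp_apply, LinearMap.coe_proj,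
        Function.eval, LinearMap.zero_apply, LinearMap.coe_single] at h0'
      rw [h0', Pi.single_eq_of_ne hi]
  let F : Module.End (Module.End R (∀ i, M i)) (∀ i, M i) :=
    { toFun := fun m => Pi.single j₀ (φ (m j₀))
      map_add' := fun m m' => by
        rw [Pi.add_apply, map_add, Pi.single_add]
      map_smul' := fun e m => by
        simp only [RingHom.id_apply, Module.End.smul_def]
        rw [h1, hφ, h2] }
  haveI : Finite (∀ i, M i) := inferInstance
  haveI : Fintype (∀ i, M i) := Fintype.ofFinite _
  obtain ⟨r, hr⟩ := jacobson_density (R := R) F Finset.univ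
  refine ⟨r, fun y => ?_, fun i hi y => ?_⟩
  · have := congrFun (hr (Pi.single j₀ y) (Finset.mem_univ _)) j₀
    simp only [F, LinearMap.coe_mk, AddHom.coe_mk, Pi.single_eq_same, Pi.smul_apply] at this
    exact this.symm
  · have := congrFun (hr (Pi.single i y) (Finset.mem_univ _)) i
    simp only [F, LinearMap.coe_mk, AddHom.coe_mk, Pi.single_eq_same, Pi.smul_apply,
      Pi.single_eq_of_ne (Ne.symm hi), map_zero, Pi.single_zero, Pi.zero_apply] at this
    exact this.symm

end Density

section TraceOne

variable (k : Type*) [Field k] [Finite k] {R : Type*} [Ring R] [Algebra k R]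
  (M : Type*) [AddCommGroup M] [Module k M] [Module R M] [IsScalarTower k R M]
  [IsSimpleModule R M] [Finite M]

/-- On a finite simple module over an algebra over a finite field there is a `k`-linear
endomorphism commuting with all `R`-endomorphisms whose trace is `1`. -/
theorem bn_exists_commutant_trace_one :
    ∃ φ : M →ₗ[k] M, (∀ (e : Module.End R M) (m : M), φ (e m) = e (φ m)) ∧
      LinearMap.trace k M φ = 1 := by
  classical
  haveI : Finite (Module.End R M) :=
    Finite.of_injective (fun e : Module.End R M => (e : M → M)) DFunLike.coe_injective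
  letI : Field (Module.End R M) := littleWedderburn _
  haveI : Nontrivial M := IsSimpleModule.nontrivial R M
  haveI : Module.Finite k (Module.End R M) := Module.Finite.of_finite
  haveI : Module.Finite k M := Module.Finite.of_finite
  obtain ⟨a, ha⟩ := Algebra.trace_surjective k (Module.End R M) 1
  obtain ⟨v, hv⟩ := exists_ne (0 : M)
  obtain ⟨ℓ, hℓ⟩ := Module.Projective.exists_dual_eq_one (Module.End R M) hv
  have hsm : ∀ (c : k) (m : M), ℓ (c • m) = c • ℓ m := by
    intro c m
    have h1 : c • m = (algebraMap k (Module.End R M) c) • m := by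
      rw [Module.End.smul_def, Algebra.algebraMap_eq_smul_one, LinearMap.smul_apply,
        Module.End.one_apply]
    rw [h1, map_smul, smul_eq_mul, Algebra.smul_def]
  let ℓk : M →ₗ[k] (Module.End R M) :=
    { toFun := fun m => ℓ m
      map_add' := fun m m' => map_add ℓ m m'
      map_smul' := fun c m => hsm c m }
  let ι : (Module.End R M) →ₗ[k] M :=
    { toFun := fun d => d v
      map_add' := fun d d' => LinearMap.add_apply d d' v
      map_smul' := fun c d => LinearMap.smul_apply c d v }
  let g : M →ₗ[k] (Module.End R M) := (Algebra.lmul k (Module.End R M) a) ∘ₗ ℓk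
  refine ⟨ι ∘ₗ g, fun e m => ?_, ?_⟩
  · show (a * ℓ (e m)) v = e ((a * ℓ m) v)
    have : ℓ (e m) = e * ℓ m := by
      have := map_smul ℓ e m
      rwa [Module.End.smul_def, smul_eq_mul] at this
    rw [this, ← mul_assoc, mul_comm a e, mul_assoc, Module.End.mul_apply]
  · rw [LinearMap.trace_comp_comm']
    have : g ∘ₗ ι = Algebra.lmul k (Module.End R M) a := by
      refine LinearMap.ext fun d => ?_
      show a * ℓ (d v) = a * d
      have : ℓ (d v) = d * ℓ v := by
        have := map_smul ℓ d v
        rwa [Module.End.smul_def, smul_eq_mul] at this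
      rw [this, hℓ, mul_one]
    rw [this, ← Algebra.trace_apply, ha]

end TraceOne

end Fermat.Agent.S56.EC
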