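/-
S56, wall W2-EC, leaf (B1) Brauer–Nesbitt (helper88): for a finite family of simple finite
`𝔽_p[Γ]`-modules without non-zero homomorphisms between different members there are elements of
the group algebra with trace `1` on one member and acting as `0` on the others; the traces of the
members are linearly independent modulo `p`.
-/
import Fermat.Agent.S56.W2.EC.Brauer.BN.Density

set_option autoImplicit false
set_option linter.style.haveILetI false

namespace Fermat.Agent.S56.EC

open Module

variable {p : ℕ} [Fact p.Prime] {Γ : Type} [Group Γ]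

section

variable {κ : Type} [Finite κ] (S : κ → Rep.{0} (ZMod p) Γ)
  (hfin : ∀ j, Module.Finite (ZMod p) (S j))
  (hs : ∀ j, IsSimpleModule (MonoidAlgebra (ZMod p) Γ) (S j).ρ.asModule)
  (hne : ∀ i j, i ≠ j → ∀ f : (S i) →ₗ[ZMod p] (S j),
    (∀ (g : Γ) (x : S i), f ((S i).ρ g x) = (S j).ρ g (f x)) → f = 0)

include hfin hs hne in
/-- An element of the group algebra with trace `1` on `S j₀` which kills the other members. -/
theorem bn_trace_element (j₀ : κ) :
    ∃ x : MonoidAlgebra (ZMod p) Γ,
      LinearMap.trace (ZMod p) (S j₀) ((S j₀).ρ.asAlgebraHom x) = 1 ∧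
      ∀ i, i ≠ j₀ → (S i).ρ.asAlgebraHom x = 0 := by
  classical
  haveI := hs
  haveI : ∀ j, Finite (S j).ρ.asModule := fun j =>
    haveI := hfin j
    (Module.finite_of_finite (ZMod p) : Finite (S j))
  obtain ⟨φ, hφc, hφt⟩ := bn_exists_commutant_trace_one (ZMod p)
    (R := MonoidAlgebra (ZMod p) Γ) (S j₀).ρ.asModule
  have hne' : ∀ i j, i ≠ j →
      ∀ f : (S i).ρ.asModule →ₗ[MonoidAlgebra (ZMod p) Γ] (S j).ρ.asModule, f = 0 := by
    intro i j hij f
    have h0 := hne i j hij
      ((S j).ρ.asModuleEquiv.toLinearMap ∘ₗ (f.restrictScalars (ZMod p)) ∘ₗ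
        (S i).ρ.asModuleEquiv.symm.toLinearMap)
      (fun g x => by
        simp only [LinearMap.coe_comp, LinearEquiv.coe_coe, Function.comp_apply,
          LinearMap.coe_restrictScalars]
        rw [Representation.asModuleEquiv_symm_map_rho, map_smul,
          Representation.asModuleEquiv_map_smul, Representation.asAlgebraHom_of])
    refine LinearMap.ext fun x => ?_
    have h1 := LinearMap.congr_fun h0 ((S i).ρ.asModuleEquiv x)
    simp only [LinearMap.coe_comp, LinearEquiv.coe_coe, Function.comp_apply,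
      LinearMap.coe_restrictScalars, LinearEquiv.symm_apply_apply, LinearMap.zero_apply] at h1
    exact (S j).ρ.asModuleEquiv.injective (by rw [h1, LinearMap.zero_apply, map_zero])
  obtain ⟨r, hr1, hr2⟩ := bn_density (R := MonoidAlgebra (ZMod p) Γ)
    (fun j => (S j).ρ.asModule) hne' j₀ φ.toAddMonoidHom hφc
  refine ⟨r, ?_, fun i hi => ?_⟩
  · have : (S j₀).ρ.asAlgebraHom r = φ := LinearMap.ext fun y => hr1 y
    rw [this]
    exact hφt
  · exact LinearMap.ext fun y => hr2 i hi y

include hfin hs hne in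
/-- The traces of the members are linearly independent modulo `p`. -/
theorem bn_trace_indep [Fintype κ] (u v : κ → ℕ)
    (h : ∀ γ : Γ, ∑ j, (u j : ZMod p) * LinearMap.trace (ZMod p) (S j) ((S j).ρ γ)
      = ∑ j, (v j : ZMod p) * LinearMap.trace (ZMod p) (S j) ((S j).ρ γ)) (j₀ : κ) :
    (u j₀ : ZMod p) = (v j₀ : ZMod p) := by
  classical
  let T : (κ → ℕ) → MonoidAlgebra (ZMod p) Γ →ₗ[ZMod p] ZMod p := fun w =>
    ∑ j, (w j : ZMod p) •
      ((LinearMap.trace (ZMod p) (S j)) ∘ₗ ((S j).ρ.asAlgebraHom).toLinearMap)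
  have hT : ∀ (w : κ → ℕ) (x : MonoidAlgebra (ZMod p) Γ), T w x
      = ∑ j, (w j : ZMod p) * LinearMap.trace (ZMod p) (S j) ((S j).ρ.asAlgebraHom x) := by
    intro w x
    simp only [T, LinearMap.sum_apply, LinearMap.smul_apply, LinearMap.comp_apply,
      AlgHom.toLinearMap_apply, smul_eq_mul]
  have hTeq : T u = T v := by
    refine MonoidAlgebra.lhom_ext' fun g => LinearMap.ext_ring ?_
    simp only [LinearMap.comp_apply, MonoidAlgebra.lsingle_apply]
    rw [hT, hT]
    have : ∀ j, (S j).ρ.asAlgebraHom (MonoidAlgebra.single g (1 : ZMod p)) = (S j).ρ g :=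
      fun j => Representation.asAlgebraHom_single_one _ g
    simp only [this]
    exact h g
  obtain ⟨x, hx1, hx0⟩ := bn_trace_element S hfin hs hne j₀
  have key : ∀ w : κ → ℕ, T w x = (w j₀ : ZMod p) := by
    intro w
    rw [hT, Finset.sum_eq_single j₀]
    · rw [hx1, mul_one]
    · intro i _ hi
      rw [hx0 i hi, map_zero, mul_zero]
    · intro hj
      exact absurd (Finset.mem_univ _) hj
  rw [← key u, ← key v, hTeq]

end

end Fermat.Agent.S56.EC
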