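/-
S56, wall W2-EC, leaf (B1)(c) — owner: helper88.  Statement FIXED (helper58).
Plan: `N_j := NP j - NM j`; if not all `0`, divide by the largest common power of `p` (Frobenius is
injective on `𝔽_p[T]`), compare the second coefficients: `Σ_j N_j' tr(γ | S_j) = 0` in `𝔽_p` for all
`p`-regular `γ`, hence for all `γ` (`charpoly(γ) = charpoly(γ_{p'})`), hence for all `a ∈ 𝔽_p[Γ]`; by the
density theorem there is `a` acting on `S_j` with trace `1` and as `0` on the other `S_i`.
-/
import Fermat.Agent.S56.W2.EC.Brauer.BN.Props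
import Fermat.Agent.S56.W2.EC.Brauer.BN.LinAlg
import Fermat.Agent.S56.W2.EC.Brauer.BN.TraceElt

set_option autoImplicit false
set_option linter.style.haveILetI false

namespace Fermat.Agent.S56.EC

open Fermat.Agent.F4 Polynomial

variable {p : ℕ} [Fact p.Prime] {Γ : Type} [Group Γ]

/-! ### Simple modules and Schur's lemma -/

/-- A simple module in the sense of `BNSimple` is a simple module over the group algebra. -/
theorem BNSimple.isSimpleModule {A : Rep.{0} (ZMod p) Γ} (hA : BNSimple A) :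
    IsSimpleModule (MonoidAlgebra (ZMod p) Γ) A.ρ.asModule := by
  rw [← Representation.irreducible_iff_isSimpleModule_asModule]
  haveI : Nontrivial A := hA.1
  haveI : Nontrivial (Subrepresentation A.ρ) := by
    refine ⟨⊥, ⊤, fun h => ?_⟩
    have h1 := congrArg Subrepresentation.toSubmodule h
    exact bot_ne_top h1
  refine { eq_bot_or_eq_top := fun σ => ?_ }
  rcases hA.2 σ.toSubmodule (fun γ w hw => σ.apply_mem_toSubmodule γ hw) with h | h
  · exact Or.inl (Subrepresentation.toSubmodule_injective h)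
  · exact Or.inr (Subrepresentation.toSubmodule_injective h)

/-- **Schur**: a non-zero equivariant map between simple modules is an isomorphism. -/
theorem bn_schur {A B : Rep.{0} (ZMod p) Γ} (hA : BNSimple A) (hB : BNSimple B)
    (f : A →ₗ[ZMod p] B) (hf : ∀ (γ : Γ) (x : A), f (A.ρ γ x) = B.ρ γ (f x)) (h0 : f ≠ 0) :
    BNIso A B := by
  have hker : LinearMap.ker f = ⊥ := by
    rcases hA.2 (LinearMap.ker f) (fun γ w hw => by
      rw [LinearMap.mem_ker] at hw ⊢
      rw [hf, hw, map_zero]) with h | h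
    · exact h
    · exact absurd (LinearMap.ker_eq_top.1 h) h0
  have hrange : LinearMap.range f = ⊤ := by
    rcases hB.2 (LinearMap.range f) (fun γ w hw => by
      obtain ⟨x, rfl⟩ := hw
      exact ⟨A.ρ γ x, hf γ x⟩) with h | h
    · exact absurd (LinearMap.range_eq_bot.1 h) h0
    · exact h
  exact ⟨LinearEquiv.ofBijective f ⟨LinearMap.ker_eq_bot.1 hker, LinearMap.range_eq_top.1 hrange⟩,
    fun γ x => hf γ x⟩

/-! ### The `p`-regular part of an element -/

/-- Every element `γ` of a finite group has a `p`-regular power `γₛ` with the same trace as `γ`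
on every finite module. -/
theorem bn_exists_preg [Finite Γ] (γ : Γ) :
    ∃ γs : Γ, IsPReg p γs ∧ ∀ (A : Rep.{0} (ZMod p) Γ), Module.Finite (ZMod p) A →
      LinearMap.trace (ZMod p) A (A.ρ γ) = LinearMap.trace (ZMod p) A (A.ρ γs) := by
  have hp : p.Prime := Fact.out
  obtain ⟨a, m, hm, hn⟩ := Nat.exists_eq_pow_mul_and_not_dvd (orderOf_pos γ).ne' p hp.ne_one
  have hpm : Nat.Coprime p m := (Nat.Prime.coprime_iff_not_dvd hp).2 hm
  have cop : Nat.Coprime (p ^ a) m := Nat.Coprime.pow_left a hpm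
  obtain ⟨s, hs0, hs1⟩ := Nat.chineseRemainder cop 0 1
  obtain ⟨u, hu1, hu0⟩ := Nat.chineseRemainder cop 1 0
  have hsu : γ ^ s * γ ^ u = γ := by
    rw [← pow_add]
    have h1 : s + u ≡ 1 [MOD p ^ a * m] := by
      rw [← Nat.modEq_and_modEq_iff_modEq_mul cop]
      exact ⟨by simpa using hs0.add hu1, by simpa using hs1.add hu0⟩
    have h2 : γ ^ (s + u) = γ ^ 1 := by
      rw [pow_eq_pow_iff_modEq, hn]
      exact h1
    rw [h2, pow_one]
  have hsm : (γ ^ s) ^ m = 1 := by
    rw [← pow_mul, ← orderOf_dvd_iff_pow_eq_one, hn]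
    exact Nat.mul_dvd_mul_right ((Nat.modEq_zero_iff_dvd).1 hs0) m
  have hupa : (γ ^ u) ^ (p ^ a) = 1 := by
    rw [← pow_mul, ← orderOf_dvd_iff_pow_eq_one, hn, mul_comm u]
    exact Nat.mul_dvd_mul_left _ ((Nat.modEq_zero_iff_dvd).1 hu0)
  refine ⟨γ ^ s, ?_, fun A hA => ?_⟩
  · show (orderOf (γ ^ s)).Coprime p
    exact Nat.Coprime.coprime_dvd_left (orderOf_dvd_of_pow_eq_one hsm) hpm.symm
  · have hc : Commute (A.ρ (γ ^ s)) (A.ρ (γ ^ u)) := by
      rw [map_pow, map_pow]
      exact (Commute.refl _).pow_pow s u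
    have hu : (A.ρ (γ ^ u)) ^ (p ^ a) = 1 := by
      rw [← map_pow, hupa, map_one]
    have := bn_trace_mul_unip p (A.ρ (γ ^ s)) (A.ρ (γ ^ u)) hc a hu
    rw [← map_mul, hsu] at this
    exact this

/-! ### Independence -/

section Indep

variable [Finite Γ] {n : ℕ} (S : Fin n → Rep.{0} (ZMod p) Γ)
  (hfin : ∀ j, Module.Finite (ZMod p) (S j)) (hs : ∀ j, BNSimple (S j))
  (hne : ∀ i j, i ≠ j → ¬ BNIso (S i) (S j))

include hfin hs hne in
/-- Congruence of the exponents modulo `p`. -/
theorem bn_indep_modEq (NP NM : Fin n → ℕ)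
    (h : ∀ γ : Γ, IsPReg p γ →
      ∏ j, repCharpoly (S j) γ ^ NP j = ∏ j, repCharpoly (S j) γ ^ NM j) (j₀ : Fin n) :
    NP j₀ ≡ NM j₀ [MOD p] := by
  rw [← ZMod.natCast_eq_natCast_iff]
  have hmonic : ∀ (j : Fin n) (γ : Γ), (repCharpoly (S j) γ).Monic := fun j γ => by
    haveI := hfin j
    rw [repCharpoly_eq]
    exact LinearMap.charpoly_monic _
  have htr : ∀ (j : Fin n) (γ : Γ),
      (repCharpoly (S j) γ).nextCoeff = - LinearMap.trace (ZMod p) (S j) ((S j).ρ γ) := fun j γ => by
    haveI := hfin j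
    rw [repCharpoly_eq, bn_trace_eq_neg_nextCoeff, neg_neg]
  have hnc : ∀ (w : Fin n → ℕ) (γ : Γ), (∏ j, repCharpoly (S j) γ ^ w j).nextCoeff
      = - ∑ j, (w j : ZMod p) * LinearMap.trace (ZMod p) (S j) ((S j).ρ γ) := by
    intro w γ
    rw [Polynomial.Monic.nextCoeff_prod _ _ (fun j _ => (hmonic j γ).pow (w j)),
      ← Finset.sum_neg_distrib]
    refine Finset.sum_congr rfl fun j _ => ?_
    rw [Polynomial.Monic.nextCoeff_pow (hmonic j γ), htr, nsmul_eq_mul, mul_neg]
  have hreg : ∀ γ : Γ, IsPReg p γ →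
      ∑ j, (NP j : ZMod p) * LinearMap.trace (ZMod p) (S j) ((S j).ρ γ)
        = ∑ j, (NM j : ZMod p) * LinearMap.trace (ZMod p) (S j) ((S j).ρ γ) := by
    intro γ hγ
    have := congrArg Polynomial.nextCoeff (h γ hγ)
    rw [hnc, hnc] at this
    exact neg_injective this
  refine bn_trace_indep S hfin (fun j => (hs j).isSimpleModule)
    (fun i j hij f hf => ?_) NP NM (fun γ => ?_) j₀
  · by_contra h0
    exact hne i j hij (bn_schur (hs i) (hs j) f hf h0)
  · obtain ⟨γs, hγs, hγ⟩ := bn_exists_preg (p := p) γ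
    have e : ∀ j, LinearMap.trace (ZMod p) (S j) ((S j).ρ γ)
        = LinearMap.trace (ZMod p) (S j) ((S j).ρ γs) := fun j => hγ (S j) (hfin j)
    simp only [e]
    exact hreg γs hγs

include hfin hs hne in
/-- **(c)** independence, by induction on the sum of the exponents. -/
theorem bn_indep_aux : ∀ (N : ℕ) (NP NM : Fin n → ℕ), ∑ j, (NP j + NM j) = N →
    (∀ γ : Γ, IsPReg p γ →
      ∏ j, repCharpoly (S j) γ ^ NP j = ∏ j, repCharpoly (S j) γ ^ NM j) → NP = NM := by
  have hp : p.Prime := Fact.out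
  intro N
  induction N using Nat.strong_induction_on with
  | _ N ih =>
    intro NP NM hN h
    have hmod := bn_indep_modEq S hfin hs hne NP NM h
    have hmonic : ∀ (j : Fin n) (γ : Γ), (repCharpoly (S j) γ).Monic := fun j γ => by
      haveI := hfin j
      rw [repCharpoly_eq]
      exact LinearMap.charpoly_monic _
    -- decompose the exponents
    have hP : ∀ j, ∃ t, NP j = min (NP j) (NM j) + p * t := by
      intro j
      rcases le_total (NP j) (NM j) with hle | hle
      · exact ⟨0, by rw [min_eq_left hle, mul_zero, add_zero]⟩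
      · obtain ⟨t, ht⟩ := (Nat.modEq_iff_dvd' hle).1 (hmod j).symm
        exact ⟨t, by rw [min_eq_right hle, ← ht]; omega⟩
    have hM : ∀ j, ∃ t, NM j = min (NP j) (NM j) + p * t := by
      intro j
      rcases le_total (NP j) (NM j) with hle | hle
      · obtain ⟨t, ht⟩ := (Nat.modEq_iff_dvd' hle).1 (hmod j)
        exact ⟨t, by rw [min_eq_left hle, ← ht]; omega⟩
      · exact ⟨0, by rw [min_eq_right hle, mul_zero, add_zero]⟩
    choose P' hP' using hP
    choose M' hM' using hM
    have hprod : ∀ (w w' : Fin n → ℕ) (hw : ∀ j, w j = min (NP j) (NM j) + p * w' j) (γ : Γ),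
        ∏ j, repCharpoly (S j) γ ^ w j
          = (∏ j, repCharpoly (S j) γ ^ min (NP j) (NM j)) *
            (∏ j, repCharpoly (S j) γ ^ w' j) ^ p := by
      intro w w' hw γ
      rw [← Finset.prod_pow, ← Finset.prod_mul_distrib]
      refine Finset.prod_congr rfl fun j _ => ?_
      rw [hw j, pow_add, ← pow_mul, mul_comm p]
    have h' : ∀ γ : Γ, IsPReg p γ →
        ∏ j, repCharpoly (S j) γ ^ P' j = ∏ j, repCharpoly (S j) γ ^ M' j := by
      intro γ hγ
      have h1 := h γ hγ
      rw [hprod NP P' hP' γ, hprod NM M' hM' γ] at h1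
      have hne0 : (∏ j, repCharpoly (S j) γ ^ min (NP j) (NM j)) ≠ 0 :=
        (Polynomial.monic_prod_of_monic _ _ fun j _ => (hmonic j γ).pow _).ne_zero
      exact bn_pow_char_inj p _ _ (mul_left_cancel₀ hne0 h1)
    by_cases hz : ∀ j, P' j + M' j = 0
    · funext j
      have := hz j
      have h1 : P' j = 0 := by omega
      have h2 : M' j = 0 := by omega
      have e1 := hP' j
      have e2 := hM' j
      rw [h1, mul_zero, add_zero] at e1
      rw [h2, mul_zero, add_zero] at e2
      exact e1.trans e2.symm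
    · obtain ⟨j₁, hj₁⟩ := not_forall.1 hz
      have hle : ∀ j, P' j + M' j ≤ NP j + NM j := by
        intro j
        have h1 : P' j ≤ p * P' j := Nat.le_mul_of_pos_left _ hp.pos
        have h2 : M' j ≤ p * M' j := Nat.le_mul_of_pos_left _ hp.pos
        have e1 := hP' j
        have e2 := hM' j
        generalize p * P' j = x at h1 e1
        generalize p * M' j = y at h2 e2
        omega
      have hlt : ∑ j, (P' j + M' j) < N := by
        rw [← hN]
        refine Finset.sum_lt_sum (fun j _ => hle j) ⟨j₁, Finset.mem_univ _, ?_⟩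
        have h1 : 2 * P' j₁ ≤ p * P' j₁ := Nat.mul_le_mul_right _ hp.two_le
        have h2 : 2 * M' j₁ ≤ p * M' j₁ := Nat.mul_le_mul_right _ hp.two_le
        have e1 := hP' j₁
        have e2 := hM' j₁
        generalize p * P' j₁ = x at h1 e1
        generalize p * M' j₁ = y at h2 e2
        omega
      have := ih _ hlt P' M' rfl h'
      funext j
      have e1 := hP' j
      have e2 := hM' j
      rw [this] at e1
      exact e1.trans e2.symm

end Indep

/-- **(c)** independence. -/
theorem bnIndep (p : ℕ) [Fact p.Prime] (Γ : Type) [Group Γ] [Finite Γ] : BNIndep p Γ := by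
  intro n S hfin hs hne NP NM h
  exact bn_indep_aux S hfin hs hne _ NP NM rfl h

end Fermat.Agent.S56.EC
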