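/-
S56, wall W2-EC, leaf (B1) Brauer–Nesbitt, part 0 (helper58): sub- and quotient representations,
isomorphisms, simple modules; additivity and characteristic polynomials.
-/
import Fermat.Agent.S56.W2.EC.Brauer.Defs

set_option autoImplicit false
set_option linter.style.haveILetI false

namespace Fermat.Agent.S56.EC

open Fermat.Agent.F4 Polynomial

variable {p : ℕ} [Fact p.Prime] {Γ : Type} [Group Γ]

/-- An equivariant isomorphism exists. -/
def BNIso (A B : Rep.{0} (ZMod p) Γ) : Prop :=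
  ∃ e : A ≃ₗ[ZMod p] B, ∀ (γ : Γ) (x : A), e (A.ρ γ x) = B.ρ γ (e x)

/-- `W` is stable under `Γ`. -/
def BNStable (A : Rep.{0} (ZMod p) Γ) (W : Submodule (ZMod p) A) : Prop :=
  ∀ (γ : Γ), ∀ w ∈ W, A.ρ γ w ∈ W

/-- `A` is a simple `𝔽_p[Γ]`-module. -/
def BNSimple (A : Rep.{0} (ZMod p) Γ) : Prop :=
  Nontrivial A ∧ ∀ W : Submodule (ZMod p) A, BNStable A W → W = ⊥ ∨ W = ⊤

lemma BNIso.refl (A : Rep.{0} (ZMod p) Γ) : BNIso A A :=
  ⟨LinearEquiv.refl _ _, fun _ _ => rfl⟩

lemma BNIso.symm {A B : Rep.{0} (ZMod p) Γ} (h : BNIso A B) : BNIso B A := by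
  obtain ⟨e, he⟩ := h
  refine ⟨e.symm, fun γ x => ?_⟩
  apply e.injective
  rw [he, e.apply_symm_apply, e.apply_symm_apply]

lemma BNIso.trans {A B C : Rep.{0} (ZMod p) Γ} (h : BNIso A B) (h' : BNIso B C) : BNIso A C := by
  obtain ⟨e, he⟩ := h
  obtain ⟨e', he'⟩ := h'
  exact ⟨e.trans e', fun γ x => by
    show e' (e (A.ρ γ x)) = C.ρ γ (e' (e x))
    rw [he, he']⟩

/-- The representation on a stable submodule. -/
noncomputable def bnSubρ (A : Rep.{0} (ZMod p) Γ) (W : Submodule (ZMod p) A)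
    (hW : BNStable A W) : Representation (ZMod p) Γ W where
  toFun γ := (A.ρ γ).restrict (hW γ)
  map_one' := by
    refine LinearMap.ext fun w => Subtype.ext ?_
    show A.ρ 1 (w : A) = w
    rw [map_one]; rfl
  map_mul' γ γ' := by
    refine LinearMap.ext fun w => Subtype.ext ?_
    show A.ρ (γ * γ') (w : A) = A.ρ γ (A.ρ γ' (w : A))
    rw [map_mul]; rfl

/-- The sub-representation on a stable submodule. -/
noncomputable def bnSub (A : Rep.{0} (ZMod p) Γ) (W : Submodule (ZMod p) A)
    (hW : BNStable A W) : Rep.{0} (ZMod p) Γ := Rep.of (bnSubρ A W hW)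

/-- The representation on the quotient by a stable submodule. -/
noncomputable def bnQuotρ (A : Rep.{0} (ZMod p) Γ) (W : Submodule (ZMod p) A)
    (hW : BNStable A W) : Representation (ZMod p) Γ (A ⧸ W) where
  toFun γ := W.mapQ W (A.ρ γ) (fun w hw => hW γ w hw)
  map_one' := by
    refine LinearMap.ext fun x => ?_
    obtain ⟨a, rfl⟩ := Submodule.mkQ_surjective W x
    show Submodule.Quotient.mk (A.ρ 1 a) = Submodule.Quotient.mk a
    rw [map_one]; rfl
  map_mul' γ γ' := by
    refine LinearMap.ext fun x => ?_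
    obtain ⟨a, rfl⟩ := Submodule.mkQ_surjective W x
    show Submodule.Quotient.mk (A.ρ (γ * γ') a) = Submodule.Quotient.mk (A.ρ γ (A.ρ γ' a))
    rw [map_mul]; rfl

/-- The quotient representation by a stable submodule. -/
noncomputable def bnQuot (A : Rep.{0} (ZMod p) Γ) (W : Submodule (ZMod p) A)
    (hW : BNStable A W) : Rep.{0} (ZMod p) Γ := Rep.of (bnQuotρ A W hW)

lemma bnSub_ρ_apply (A : Rep.{0} (ZMod p) Γ) (W : Submodule (ZMod p) A) (hW : BNStable A W)
    (γ : Γ) (w : W) :
    ((bnSub A W hW).ρ γ : W →ₗ[ZMod p] W) w = ⟨A.ρ γ (w : A), hW γ w w.2⟩ := rfl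

lemma bnQuot_ρ_mk (A : Rep.{0} (ZMod p) Γ) (W : Submodule (ZMod p) A) (hW : BNStable A W)
    (γ : Γ) (a : A) :
    ((bnQuot A W hW).ρ γ : (A ⧸ W) →ₗ[ZMod p] (A ⧸ W)) (Submodule.Quotient.mk a) =
      Submodule.Quotient.mk (A.ρ γ a) :=
  rfl

/-! ### Additive functions -/

lemma bnSub_finite (A : Rep.{0} (ZMod p) Γ) (hA : Module.Finite (ZMod p) A)
    (W : Submodule (ZMod p) A) (hW : BNStable A W) : Module.Finite (ZMod p) (bnSub A W hW) := by
  haveI := hA
  show Module.Finite (ZMod p) W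
  infer_instance

lemma bnQuot_finite (A : Rep.{0} (ZMod p) Γ) (hA : Module.Finite (ZMod p) A)
    (W : Submodule (ZMod p) A) (hW : BNStable A W) : Module.Finite (ZMod p) (bnQuot A W hW) := by
  haveI := hA
  show Module.Finite (ZMod p) (A ⧸ W)
  infer_instance

/-- `d A = d W + d (A / W)`. -/
theorem IsAdditiveFn.bn_sub_quot {d : Rep.{0} (ZMod p) Γ → ℤ} (hd : IsAdditiveFn d)
    (A : Rep.{0} (ZMod p) Γ) (hA : Module.Finite (ZMod p) A) (W : Submodule (ZMod p) A)
    (hW : BNStable A W) : d A = d (bnSub A W hW) + d (bnQuot A W hW) := by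
  refine hd (bnSub A W hW) A (bnQuot A W hW) W.subtype W.mkQ hA (fun _ _ => rfl) (fun _ _ => rfl)
    W.injective_subtype (Submodule.mkQ_surjective W)
    ((Submodule.range_subtype W).trans (Submodule.ker_mkQ W).symm)

lemma bnStable_top (A : Rep.{0} (ZMod p) Γ) : BNStable A ⊤ := fun _ _ _ => Submodule.mem_top

lemma bnStable_bot (A : Rep.{0} (ZMod p) Γ) : BNStable A ⊥ := fun γ w hw => by
  rw [Submodule.mem_bot] at hw ⊢
  rw [hw, map_zero]

/-- `d` vanishes on the zero module `A / A`. -/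
theorem IsAdditiveFn.bn_quot_top {d : Rep.{0} (ZMod p) Γ → ℤ} (hd : IsAdditiveFn d)
    (A : Rep.{0} (ZMod p) Γ) : d (bnQuot A ⊤ (bnStable_top A)) = 0 := by
  set Z := bnQuot A ⊤ (bnStable_top A) with hZ
  haveI hsub : Subsingleton (A ⧸ (⊤ : Submodule (ZMod p) A)) :=
    Submodule.Quotient.subsingleton_iff.2 rfl
  haveI hsubZ : Subsingleton Z := hsub
  have hfin : Module.Finite (ZMod p) Z := by
    haveI : Finite Z := Finite.of_subsingleton
    exact Module.Finite.of_finite
  have h := hd Z Z Z 0 0 hfin (fun _ _ => Subsingleton.elim _ _) (fun _ _ => Subsingleton.elim _ _)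
    (fun _ _ _ => Subsingleton.elim _ _) (fun b => ⟨b, Subsingleton.elim _ _⟩)
    (by
      ext x
      simp only [LinearMap.mem_range, LinearMap.mem_ker]
      exact ⟨fun _ => Subsingleton.elim _ _, fun _ => ⟨x, Subsingleton.elim _ _⟩⟩)
  linarith

/-- `d` is invariant under isomorphisms. -/
theorem IsAdditiveFn.bn_iso {d : Rep.{0} (ZMod p) Γ → ℤ} (hd : IsAdditiveFn d)
    {A B : Rep.{0} (ZMod p) Γ} (hB : Module.Finite (ZMod p) B) (h : BNIso A B) : d A = d B := by
  obtain ⟨e, he⟩ := h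
  have h1 := hd A B (bnQuot B ⊤ (bnStable_top B)) e.toLinearMap
    (Submodule.mkQ (⊤ : Submodule (ZMod p) B)) hB he (fun _ _ => rfl) e.injective
    (Submodule.mkQ_surjective _)
    ((LinearMap.range_eq_top.2 e.surjective).trans (Submodule.ker_mkQ ⊤).symm)
  rw [hd.bn_quot_top, add_zero] at h1
  exact h1.symm

/-! ### Characteristic polynomials -/

/-- The characteristic polynomial is multiplicative on `0 → W → A → A / W → 0`. -/
theorem bnTools_charpoly_restrict_mul_mapQ {K V : Type} [Field K] [AddCommGroup V] [Module K V]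
    [Module.Finite K V] (W : Submodule K V) (e : V →ₗ[K] V) (he : W ≤ W.comap e) :
    e.charpoly = (e.restrict he).charpoly * (W.mapQ W e he).charpoly := by
  classical
  let m := Module.Free.ChooseBasisIndex K W
  let bW : Module.Basis m K W := Module.Free.chooseBasis K W
  let n := Module.Free.ChooseBasisIndex K (V ⧸ W)
  let bQ : Module.Basis n K (V ⧸ W) := Module.Free.chooseBasis K (V ⧸ W)
  let b := Module.Basis.sumQuot bW bQ
  let A : Matrix m m K := LinearMap.toMatrix bW bW (e.restrict he)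
  let B : Matrix m n K := Matrix.of fun i l ↦
    ((Module.Basis.sumQuot bW bQ).repr (e ((Module.Basis.sumQuot bW bQ) (Sum.inr l)))) (Sum.inl i)
  let D : Matrix n n K := LinearMap.toMatrix bQ bQ (W.mapQ W e he)
  suffices LinearMap.toMatrix b b e = Matrix.fromBlocks A B 0 D by
    rw [← LinearMap.charpoly_toMatrix e b, this, ← LinearMap.charpoly_toMatrix _ bW,
      ← LinearMap.charpoly_toMatrix _ bQ, Matrix.charpoly_fromBlocks_zero₂₁]
  ext u v
  cases u with
  | inl i =>
    cases v with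
    | inl k =>
      simp only [b, Module.Basis.sumQuot_inl, Matrix.fromBlocks_apply₁₁, A,
        LinearMap.toMatrix_apply]
      apply Module.Basis.sumQuot_repr_inl_of_mem
    | inr l => simp [b, LinearMap.toMatrix_apply, Matrix.fromBlocks_apply₁₂, B]
  | inr j =>
    cases v with
    | inl k =>
      suffices W.mkQ (e (bW k)) = 0 by simp [LinearMap.toMatrix_apply, b, this]
      rw [← LinearMap.mem_ker, Submodule.ker_mkQ]
      exact he (Submodule.coe_mem (bW k))
    | inr l =>
      simp only [LinearMap.toMatrix_apply, Module.Basis.sumQuot_repr_inr,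
        Matrix.fromBlocks_apply₂₂, b, D]
      rw [← Module.Basis.sumQuot_inr bW bQ l, W.mapQ_apply]
      simp

/-- `charpoly(γ | A) = charpoly(γ | W) · charpoly(γ | A / W)`. -/
theorem repCharpoly_sub_quot (A : Rep.{0} (ZMod p) Γ) (hA : Module.Finite (ZMod p) A)
    (W : Submodule (ZMod p) A) (hW : BNStable A W) (γ : Γ) :
    repCharpoly A γ = repCharpoly (bnSub A W hW) γ * repCharpoly (bnQuot A W hW) γ := by
  haveI := hA
  haveI := bnSub_finite A hA W hW
  haveI := bnQuot_finite A hA W hW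
  rw [repCharpoly_eq, repCharpoly_eq, repCharpoly_eq]
  exact bnTools_charpoly_restrict_mul_mapQ W (A.ρ γ) (fun w hw => hW γ w hw)

/-- Isomorphic modules have the same characteristic polynomials. -/
theorem repCharpoly_iso {A B : Rep.{0} (ZMod p) Γ} (hA : Module.Finite (ZMod p) A)
    (h : BNIso A B) (γ : Γ) : repCharpoly A γ = repCharpoly B γ := by
  obtain ⟨e, he⟩ := h
  haveI := hA
  haveI : Module.Finite (ZMod p) B := Module.Finite.equiv e
  rw [repCharpoly_eq, repCharpoly_eq]
  rw [← LinearEquiv.charpoly_conj e (A.ρ γ)]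
  congr 1
  refine LinearMap.ext fun x => ?_
  show e (A.ρ γ (e.symm x)) = B.ρ γ x
  rw [he, e.apply_symm_apply]

end Fermat.Agent.S56.EC
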