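/-
S56, wall W2-EC, leaf (B1) Brauer–Nesbitt: the statements of its parts.  FIXED (helper58).

 (a) `BNList p Γ`   : a finite complete list of pairwise non-isomorphic simple modules   (helper58);
 (b) `bn_filtration` (BN/Filt.lean): every finite `X` has multiplicities `m j` with
     `d X = Σ_j m j · d (S j)` for all additive `d` and
     `charpoly(γ | X) = ∏_j charpoly(γ | S j)^{m j}`                                       (helper58);
 (c) `BNIndep p Γ`  : independence of the characteristic polynomials of pairwise non-isomorphic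
     simple modules on the `p`-regular elements                                          (helper88);
 (d) `brauerNesbitt_of` (BN/Wire.lean): `BrauerNesbitt p Γ` from (a), (b), (c)            (helper58).
-/
import Fermat.Agent.S56.W2.EC.Brauer.BN.Tools

set_option autoImplicit false

namespace Fermat.Agent.S56.EC

open Fermat.Agent.F4 Polynomial

/-- **(c)** independence: for pairwise non-isomorphic simple finite modules `S j` and exponents
`NP j`, `NM j`, if `∏_j charpoly(γ | S j)^{NP j} = ∏_j charpoly(γ | S j)^{NM j}` for all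
`p`-regular `γ`, then `NP = NM`. -/
def BNIndep (p : ℕ) [Fact p.Prime] (Γ : Type) [Group Γ] : Prop :=
  ∀ (n : ℕ) (S : Fin n → Rep.{0} (ZMod p) Γ), (∀ j, Module.Finite (ZMod p) (S j)) →
    (∀ j, BNSimple (S j)) → (∀ i j, i ≠ j → ¬ BNIso (S i) (S j)) →
    ∀ NP NM : Fin n → ℕ,
      (∀ γ : Γ, IsPReg p γ →
        ∏ j, repCharpoly (S j) γ ^ NP j = ∏ j, repCharpoly (S j) γ ^ NM j) →
      NP = NM

/-- **(a)** a finite complete list of pairwise non-isomorphic simple finite modules. -/
def BNList (p : ℕ) [Fact p.Prime] (Γ : Type) [Group Γ] : Prop :=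
  ∃ (n : ℕ) (S : Fin n → Rep.{0} (ZMod p) Γ), (∀ j, Module.Finite (ZMod p) (S j)) ∧
    (∀ j, BNSimple (S j)) ∧ (∀ i j, i ≠ j → ¬ BNIso (S i) (S j)) ∧
    ∀ A : Rep.{0} (ZMod p) Γ, Module.Finite (ZMod p) A → BNSimple A → ∃ j, BNIso A (S j)

end Fermat.Agent.S56.EC
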