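/-
S56, wall W2-EC, leaf (B1)(a) Brauer–Nesbitt (helper58): a finite complete list of pairwise
non-isomorphic simple `𝔽_p[Γ]`-modules (`bnList`).

Every simple module is a quotient of the regular representation `𝔽_p[Γ]`, which has finitely many
submodules; choose representatives of the isomorphism classes of the simple quotients.
-/
import Fermat.Agent.S56.W2.EC.Brauer.BN.Props

set_option autoImplicit false
set_option linter.style.haveILetI false

namespace Fermat.Agent.S56.EC

open Fermat.Agent.F4 Polynomial Module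

variable {p : ℕ} [Fact p.Prime] {Γ : Type} [Group Γ]

variable (p Γ) in
/-- The regular representation `𝔽_p[Γ]`. -/
noncomputable abbrev bnReg : Rep.{0} (ZMod p) Γ := Rep.leftRegular (ZMod p) Γ

/-- The orbit map `𝔽_p[Γ] → A`, `γ ↦ γ a`. -/
noncomputable def bnOrbitMap (A : Rep.{0} (ZMod p) Γ) (a : A) : (bnReg p Γ) →ₗ[ZMod p] A :=
  (Rep.leftRegularHom A a).hom.toLinearMap

lemma bnOrbitMap_comm (A : Rep.{0} (ZMod p) Γ) (a : A) (γ : Γ) (f : bnReg p Γ) :
    bnOrbitMap A a ((bnReg p Γ).ρ γ f) = A.ρ γ (bnOrbitMap A a f) :=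
  Rep.hom_comm_apply (Rep.leftRegularHom A a) γ f

lemma bnOrbitMap_one (A : Rep.{0} (ZMod p) Γ) (a : A) :
    bnOrbitMap A a (MonoidAlgebra.single 1 1) = a := by
  have h := Rep.leftRegularHom_hom_single (A := A) (1 : Γ) a (1 : ZMod p)
  rw [one_smul, map_one] at h
  exact h

/-- Simplicity is invariant under isomorphism. -/
theorem BNSimple.of_iso {A B : Rep.{0} (ZMod p) Γ} (h : BNIso A B) (hA : BNSimple A) :
    BNSimple B := by
  obtain ⟨e, he⟩ := h
  obtain ⟨hnt, hs⟩ := hA
  refine ⟨haveI := hnt; e.injective.nontrivial, fun W hW => ?_⟩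
  have hst : BNStable A (W.comap e.toLinearMap) := by
    intro γ w hw
    rw [Submodule.mem_comap] at hw ⊢
    show e (A.ρ γ w) ∈ W
    rw [he]
    exact hW γ _ hw
  rcases hs _ hst with h | h
  · left
    rw [eq_bot_iff]
    intro w hw
    have h1 : e.symm w ∈ W.comap e.toLinearMap := by
      rw [Submodule.mem_comap]
      show e (e.symm w) ∈ W
      rwa [e.apply_symm_apply]
    rw [h, Submodule.mem_bot] at h1
    rw [Submodule.mem_bot]
    have := congrArg e h1
    rwa [e.apply_symm_apply, map_zero] at this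
  · right
    rw [eq_top_iff]
    intro w _
    have h1 : e.symm w ∈ W.comap e.toLinearMap := by rw [h]; exact Submodule.mem_top
    rw [Submodule.mem_comap] at h1
    have h2 : e (e.symm w) ∈ W := h1
    rwa [e.apply_symm_apply] at h2

/-- A simple module is isomorphic to a quotient of the regular representation. -/
theorem bn_simple_iso_quot (A : Rep.{0} (ZMod p) Γ) (hA : BNSimple A) :
    ∃ (K : Submodule (ZMod p) (bnReg p Γ)) (hK : BNStable (bnReg p Γ) K),
      BNIso (bnQuot (bnReg p Γ) K hK) A := by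
  obtain ⟨hnt, hsimple⟩ := hA
  obtain ⟨a, ha⟩ := exists_ne (0 : A)
  have hKst : BNStable (bnReg p Γ) (LinearMap.ker (bnOrbitMap A a)) := by
    intro γ f hf
    rw [LinearMap.mem_ker] at hf ⊢
    rw [bnOrbitMap_comm, hf, map_zero]
  have hrange_st : BNStable A (LinearMap.range (bnOrbitMap A a)) := by
    rintro γ _ ⟨f, rfl⟩
    exact ⟨(bnReg p Γ).ρ γ f, bnOrbitMap_comm A a γ f⟩
  have hrange : LinearMap.range (bnOrbitMap A a) = ⊤ := by
    rcases hsimple _ hrange_st with h | h
    · exfalso
      apply ha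
      have hmem : a ∈ LinearMap.range (bnOrbitMap A a) := ⟨_, bnOrbitMap_one A a⟩
      rw [h, Submodule.mem_bot] at hmem
      exact hmem
    · exact h
  refine ⟨LinearMap.ker (bnOrbitMap A a), hKst, ?_⟩
  refine ⟨(bnOrbitMap A a).quotKerEquivOfSurjective (LinearMap.range_eq_top.1 hrange),
    fun γ x => ?_⟩
  obtain ⟨f, rfl⟩ := Submodule.mkQ_surjective _ x
  show bnOrbitMap A a ((bnReg p Γ).ρ γ f) = A.ρ γ (bnOrbitMap A a f)
  exact bnOrbitMap_comm A a γ f

/-- The setoid of isomorphism on a family of representations. -/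
def bnIsoSetoid {T : Type} (F : T → Rep.{0} (ZMod p) Γ) : Setoid T where
  r s t := BNIso (F s) (F t)
  iseqv := ⟨fun _ => BNIso.refl _, fun h => h.symm, fun h h' => h.trans h'⟩

/-- **(a)** a finite complete list of pairwise non-isomorphic simple modules. -/
theorem bnList (p : ℕ) [Fact p.Prime] (Γ : Type) [Group Γ] [Finite Γ] : BNList p Γ := by
  classical
  haveI : Fintype Γ := Fintype.ofFinite Γ
  have hRegfin : Module.Finite (ZMod p) (bnReg p Γ) :=
    Module.Finite.equiv
      (MonoidAlgebra.coeffLinearEquiv (ZMod p) : MonoidAlgebra (ZMod p) Γ ≃ₗ[ZMod p] _).symm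
  haveI hfinReg : Finite (bnReg p Γ) := by
    haveI := hRegfin
    exact Module.finite_of_finite (ZMod p)
  haveI : Finite (Submodule (ZMod p) (bnReg p Γ)) :=
    Finite.of_injective (fun K : Submodule (ZMod p) (bnReg p Γ) => (K : Set (bnReg p Γ)))
      SetLike.coe_injective
  -- the stable submodules with simple quotient
  let T : Type := {K : Submodule (ZMod p) (bnReg p Γ) //
    ∃ hK : BNStable (bnReg p Γ) K, BNSimple (bnQuot (bnReg p Γ) K hK)}
  let F : T → Rep.{0} (ZMod p) Γ := fun K => bnQuot (bnReg p Γ) K.1 K.2.choose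
  let Q : Type := Quotient (bnIsoSetoid F)
  haveI : Finite T := Subtype.finite
  haveI : Finite Q := Quotient.finite _
  let e : Q ≃ Fin (Nat.card Q) := Finite.equivFin Q
  let S : Fin (Nat.card Q) → Rep.{0} (ZMod p) Γ := fun j => F (Quotient.out (e.symm j))
  refine ⟨Nat.card Q, S, fun j => bnQuot_finite _ hRegfin _ _,
    fun j => (Quotient.out (e.symm j)).2.choose_spec, ?_, ?_⟩
  · intro i j hij hiso
    apply hij
    have h1 : (⟦Quotient.out (e.symm i)⟧ : Q) = ⟦Quotient.out (e.symm j)⟧ :=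
      Quotient.sound (s := bnIsoSetoid F) hiso
    rw [Quotient.out_eq, Quotient.out_eq] at h1
    exact e.symm.injective h1
  · intro A hAfin hAsimple
    obtain ⟨K, hK, hiso⟩ := bn_simple_iso_quot A hAsimple
    have hKsimple : BNSimple (bnQuot (bnReg p Γ) K hK) := BNSimple.of_iso hiso.symm hAsimple
    let t : T := ⟨K, hK, hKsimple⟩
    refine ⟨e ⟦t⟧, ?_⟩
    have h2 : (⟦Quotient.out (e.symm (e ⟦t⟧))⟧ : Q) = ⟦t⟧ := by
      rw [Quotient.out_eq, e.symm_apply_apply]
    have h3 : BNIso (F (Quotient.out (e.symm (e ⟦t⟧)))) (F t) :=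
      Quotient.exact (s := bnIsoSetoid F) h2
    exact hiso.symm.trans h3.symm

end Fermat.Agent.S56.EC
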