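/-
S56, wall W2-EC, leaf (B1)(b) Brauer–Nesbitt (helper58): filtrations with simple quotients.

* `bn_exists_simple_sub` : a nontrivial finite module has a simple stable submodule;
* `bn_filtration` : for a complete list `S` of simple modules, every finite module `X` has
  multiplicities `m j` with `d X = Σ_j m j · d (S j)` for all additive `d` and
  `charpoly(γ | X) = ∏_j charpoly(γ | S j)^{m j}` for all `γ`.
-/
import Fermat.Agent.S56.W2.EC.Brauer.BN.Props

set_option autoImplicit false
set_option linter.style.haveILetI false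

namespace Fermat.Agent.S56.EC

open Fermat.Agent.F4 Polynomial Module

variable {p : ℕ} [Fact p.Prime] {Γ : Type} [Group Γ]

/-- Simplicity of a sub-representation, in terms of submodules of `W`. -/
lemma bnSimple_bnSub_iff (A : Rep.{0} (ZMod p) Γ) (W : Submodule (ZMod p) A)
    (hW : BNStable A W) :
    BNSimple (bnSub A W hW) ↔ Nontrivial W ∧ ∀ V : Submodule (ZMod p) W,
      (∀ (γ : Γ), ∀ v ∈ V, (⟨A.ρ γ (v : A), hW γ v v.2⟩ : W) ∈ V) → V = ⊥ ∨ V = ⊤ :=
  Iff.rfl

/-- A nontrivial finite module has a simple stable submodule. -/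
theorem bn_exists_simple_sub (A : Rep.{0} (ZMod p) Γ) (hA : Module.Finite (ZMod p) A)
    (hnt : Nontrivial A) :
    ∃ (W : Submodule (ZMod p) A) (hW : BNStable A W), BNSimple (bnSub A W hW) := by
  haveI := hA
  classical
  -- a nonzero stable submodule of minimal dimension
  have hex : ∃ r : ℕ, ∃ W : Submodule (ZMod p) A, BNStable A W ∧ W ≠ ⊥ ∧ finrank (ZMod p) W = r :=
    ⟨_, ⊤, bnStable_top A, top_ne_bot, rfl⟩
  obtain ⟨W, hW, hWne, hWr⟩ := Nat.find_spec hex
  have hmin : ∀ W' : Submodule (ZMod p) A, BNStable A W' → W' ≠ ⊥ →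
      finrank (ZMod p) W ≤ finrank (ZMod p) W' := by
    intro W' hW' hW'ne
    rw [hWr]
    exact Nat.find_min' hex ⟨W', hW', hW'ne, rfl⟩
  refine ⟨W, hW, (bnSimple_bnSub_iff A W hW).2 ⟨Submodule.nontrivial_iff_ne_bot.2 hWne, ?_⟩⟩
  intro V hV
  by_cases hV0 : V = ⊥
  · exact Or.inl hV0
  · right
    have hst : BNStable A (V.map W.subtype) := by
      rintro γ _ ⟨v, hv, rfl⟩
      exact ⟨⟨A.ρ γ (v : A), hW γ v v.2⟩, hV γ v hv, rfl⟩
    have hne : V.map W.subtype ≠ ⊥ := by
      intro h
      apply hV0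
      rw [Submodule.eq_bot_iff] at h ⊢
      intro v hv
      exact Subtype.ext (h _ ⟨v, hv, rfl⟩)
    have h1 := hmin _ hst hne
    have h2 : finrank (ZMod p) (V.map W.subtype) = finrank (ZMod p) V :=
      (Submodule.equivMapOfInjective W.subtype W.injective_subtype V).symm.finrank_eq
    rw [h2] at h1
    exact Submodule.eq_top_of_finrank_eq (le_antisymm (Submodule.finrank_le V) h1)

/-- `d` vanishes on subsingleton modules. -/
theorem IsAdditiveFn.bn_subsingleton {d : Rep.{0} (ZMod p) Γ → ℤ} (hd : IsAdditiveFn d)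
    (A : Rep.{0} (ZMod p) Γ) (hA : Subsingleton A) : d A = 0 := by
  haveI := hA
  haveI hsub : Subsingleton (A ⧸ (⊤ : Submodule (ZMod p) A)) :=
    Submodule.Quotient.subsingleton_iff.2 rfl
  have hfin : Module.Finite (ZMod p) (bnQuot A ⊤ (bnStable_top A)) := by
    haveI : Finite (A ⧸ (⊤ : Submodule (ZMod p) A)) := Finite.of_subsingleton
    exact (Module.Finite.of_finite : Module.Finite (ZMod p) (A ⧸ (⊤ : Submodule (ZMod p) A)))
  have hiso : BNIso A (bnQuot A ⊤ (bnStable_top A)) := by
    refine ⟨LinearEquiv.ofBijective (Submodule.mkQ ⊤)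
      ⟨fun _ _ _ => Subsingleton.elim _ _, Submodule.mkQ_surjective _⟩, fun _ _ => rfl⟩
  rw [hd.bn_iso hfin hiso, hd.bn_quot_top]

/-- The characteristic polynomial on a subsingleton module is `1`. -/
theorem repCharpoly_subsingleton (A : Rep.{0} (ZMod p) Γ) (hA : Subsingleton A) (γ : Γ) :
    repCharpoly A γ = 1 := by
  haveI := hA
  haveI : Module.Finite (ZMod p) A := by
    haveI : Finite A := Finite.of_subsingleton
    exact Module.Finite.of_finite
  rw [repCharpoly_eq]
  have hmon := LinearMap.charpoly_monic (A.ρ γ)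
  have hdeg := LinearMap.charpoly_natDegree (A.ρ γ)
  rw [finrank_zero_of_subsingleton] at hdeg
  exact (Polynomial.Monic.natDegree_eq_zero hmon).1 hdeg

/-- **(b)** filtration: multiplicities with respect to a complete list of simple modules. -/
theorem bn_filtration (n : ℕ) (S : Fin n → Rep.{0} (ZMod p) Γ)
    (hSfin : ∀ j, Module.Finite (ZMod p) (S j))
    (hcompl : ∀ A : Rep.{0} (ZMod p) Γ, Module.Finite (ZMod p) A → BNSimple A →
      ∃ j, BNIso A (S j))
    (X : Rep.{0} (ZMod p) Γ) (hX : Module.Finite (ZMod p) X) :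
    ∃ m : Fin n → ℕ,
      (∀ d : Rep.{0} (ZMod p) Γ → ℤ, IsAdditiveFn d → d X = ∑ j, (m j : ℤ) * d (S j)) ∧
      ∀ γ : Γ, repCharpoly X γ = ∏ j, repCharpoly (S j) γ ^ m j := by
  classical
  -- strong induction on the dimension
  suffices H : ∀ (r : ℕ) (X : Rep.{0} (ZMod p) Γ) (hX : Module.Finite (ZMod p) X),
      finrank (ZMod p) X = r → ∃ m : Fin n → ℕ,
      (∀ d : Rep.{0} (ZMod p) Γ → ℤ, IsAdditiveFn d → d X = ∑ j, (m j : ℤ) * d (S j)) ∧
      ∀ γ : Γ, repCharpoly X γ = ∏ j, repCharpoly (S j) γ ^ m j from H _ X hX rfl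
  intro r
  induction r using Nat.strong_induction_on with
  | _ r ih =>
    intro X hX hr
    haveI := hX
    by_cases hsub : Subsingleton X
    · refine ⟨fun _ => 0, fun d hd => ?_, fun γ => ?_⟩
      · rw [hd.bn_subsingleton X hsub]
        simp
      · rw [repCharpoly_subsingleton X hsub]
        simp
    · have hnt : Nontrivial X := not_subsingleton_iff_nontrivial.1 hsub
      obtain ⟨W, hW, hsimple⟩ := bn_exists_simple_sub X hX hnt
      have hWfin := bnSub_finite X hX W hW
      have hQfin := bnQuot_finite X hX W hW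
      obtain ⟨j₀, hj₀⟩ := hcompl _ hWfin hsimple
      have hWpos : 0 < finrank (ZMod p) W := by
        haveI : Nontrivial W := hsimple.1
        exact finrank_pos
      have hlt : finrank (ZMod p) (bnQuot X W hW) < r := by
        have h1 : finrank (ZMod p) (X ⧸ W) + finrank (ZMod p) W = finrank (ZMod p) X :=
          Submodule.finrank_quotient_add_finrank W
        have h2 : finrank (ZMod p) (bnQuot X W hW) = finrank (ZMod p) (X ⧸ W) := rfl
        omega
      obtain ⟨m', hm'd, hm'c⟩ := ih _ hlt (bnQuot X W hW) hQfin rfl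
      refine ⟨fun j => m' j + (if j = j₀ then 1 else 0), fun d hd => ?_, fun γ => ?_⟩
      · rw [hd.bn_sub_quot X hX W hW, hm'd d hd, hd.bn_iso (hSfin j₀) hj₀]
        simp only [Nat.cast_add, add_mul, Finset.sum_add_distrib]
        rw [add_comm]
        congr 1
        rw [Finset.sum_eq_single j₀]
        · simp
        · intro j _ hj
          simp [hj]
        · intro h
          exact absurd (Finset.mem_univ _) h
      · rw [repCharpoly_sub_quot X hX W hW γ, hm'c γ, repCharpoly_iso hWfin hj₀ γ]
        simp only [pow_add, Finset.prod_mul_distrib]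
        rw [mul_comm]
        congr 1
        rw [Finset.prod_eq_single j₀]
        · simp
        · intro j _ hj
          simp [hj]
        · intro h
          exact absurd (Finset.mem_univ _) h

end Fermat.Agent.S56.EC
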