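/-
S56, wall W2-EC, leaf (B1)(d) Brauer–Nesbitt (helper58): `BrauerNesbitt p Γ` from the complete
list of simple modules (a), the filtrations (b) and the independence (c).  Sorry-free.
-/
import Fermat.Agent.S56.W2.EC.Brauer.BN.Filt

set_option autoImplicit false
set_option linter.style.haveILetI false

namespace Fermat.Agent.S56.EC

open Fermat.Agent.F4 Polynomial Module

variable {p : ℕ} [Fact p.Prime] {Γ : Type} [Group Γ]

/-- **(d)** Brauer–Nesbitt from (a), (b), (c). -/
theorem brauerNesbitt_of (hList : BNList p Γ) (hIndep : BNIndep p Γ) : BrauerNesbitt p Γ := by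
  classical
  intro ι _ X hX nP nM hpoly d hd
  obtain ⟨n, S, hSfin, hSsimple, hSnoniso, hScompl⟩ := hList
  choose m hmd hmc using fun i => bn_filtration n S hSfin hScompl (X i) (hX i)
  -- the exponents
  let NP : Fin n → ℕ := fun j => ∑ i, nP i * m i j
  let NM : Fin n → ℕ := fun j => ∑ i, nM i * m i j
  have hprod : ∀ (w : ι → ℕ) (γ : Γ),
      ∏ i, repCharpoly (X i) γ ^ w i = ∏ j, repCharpoly (S j) γ ^ (∑ i, w i * m i j) := by
    intro w γ
    simp only [hmc, ← Finset.prod_pow, ← pow_mul]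
    rw [Finset.prod_comm]
    refine Finset.prod_congr rfl fun j _ => ?_
    rw [Finset.prod_pow_eq_pow_sum]
    congr 1
    exact Finset.sum_congr rfl fun i _ => mul_comm _ _
  have hN : NP = NM := by
    refine hIndep n S hSfin hSsimple hSnoniso NP NM fun γ hγ => ?_
    rw [← hprod nP γ, ← hprod nM γ]
    exact hpoly γ hγ
  have hsum : ∀ w : ι → ℕ, ∑ i, (w i : ℤ) * d (X i) =
      ∑ j, ((∑ i, w i * m i j : ℕ) : ℤ) * d (S j) := by
    intro w
    simp only [hmd _ d hd, Finset.mul_sum, Nat.cast_sum, Nat.cast_mul, Finset.sum_mul]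
    rw [Finset.sum_comm]
    refine Finset.sum_congr rfl fun j _ => Finset.sum_congr rfl fun i _ => ?_
    ring
  rw [hsum nP, hsum nM]
  refine Finset.sum_congr rfl fun j _ => ?_
  have := congrFun hN j
  show ((NP j : ℕ) : ℤ) * _ = ((NM j : ℕ) : ℤ) * _
  rw [this]

end Fermat.Agent.S56.EC
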